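import Fermat.Agent.Ribet.H403.DetLin

/-!
# Row 38, WALL-p, leaf ELOC-ord / LINE — linear algebra core (helper109), Mathlib-only

`V` a vector space of dimension `2` over a field `k`.

* `exists_generator_of_ne_top` : a proper subspace is spanned by one vector;
* `apply_eq_det_smul_of_sub_mem` : if `L` is a proper subspace spanned by `t` and `f x - x ∈ L`
  for all `x`, then `f t = det f • t`.
-/

set_option autoImplicit false

namespace Fermat.Agent.Ribet.H109

section LinAlg

variable {k V : Type*} [Field k] [AddCommGroup V] [Module k V] [Module.Finite k V]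

/-- A proper subspace of a two-dimensional space is spanned by one vector. -/
theorem exists_generator_of_ne_top (h2 : Module.finrank k V = 2) (L : Submodule k V)
    (hL : L ≠ ⊤) : ∃ t ∈ L, ∀ x ∈ L, ∃ c : k, x = c • t := by
  have hlt : Module.finrank k L < 2 := by
    rw [← h2]
    exact Submodule.finrank_lt hL
  rcases Nat.lt_or_ge (Module.finrank k L) 1 with h0 | h1
  · have hbot : L = ⊥ := by
      apply Submodule.finrank_eq_zero.mp
      omega
    refine ⟨0, L.zero_mem, fun x hx => ⟨0, ?_⟩⟩
    rw [hbot] at hx
    rw [(Submodule.mem_bot k).mp hx, smul_zero]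
  · have h1' : Module.finrank k L = 1 := by omega
    obtain ⟨v, -, hv⟩ := finrank_eq_one_iff'.mp h1'
    refine ⟨v, v.2, fun x hx => ?_⟩
    obtain ⟨c, hc⟩ := hv ⟨x, hx⟩
    refine ⟨c, ?_⟩
    have := congrArg (fun w : L => (w : V)) hc
    exact this.symm

/-- If `f - 1` maps a two-dimensional space into a proper subspace spanned by `t`, then
`f t = det f • t`. -/
theorem apply_eq_det_smul_of_sub_mem (h2 : Module.finrank k V = 2) (f : Module.End k V)
    (L : Submodule k V) (hL : L ≠ ⊤) (t : V)
    (hgen : ∀ x ∈ L, ∃ c : k, x = c • t) (hf : ∀ x, f x - x ∈ L) :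
    f t = LinearMap.det f • t := by
  by_cases ht0 : t = 0
  · rw [ht0, map_zero, smul_zero]
  -- `f t = a • t`
  obtain ⟨c, hc⟩ := hgen _ (hf t)
  have hft : f t = (c + 1) • t := by
    rw [add_smul, one_smul, ← hc]; abel
  set a : k := c + 1 with ha
  by_cases hsc : ∃ s : k, ∀ x, f x = s • x
  · -- scalar case: `f = 1`
    obtain ⟨s, hs⟩ := hsc
    have hs1 : s = 1 := by
      by_contra hne
      apply hL
      rw [eq_top_iff]
      intro y _
      have hy := hf y
      rw [hs y] at hy
      have h2' : s • y - y = (s - 1) • y := by rw [sub_smul, one_smul]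
      rw [h2'] at hy
      have h3 : y = (s - 1)⁻¹ • ((s - 1) • y) := by
        rw [smul_smul, inv_mul_cancel₀ (sub_ne_zero.2 hne), one_smul]
      rw [h3]
      exact L.smul_mem _ hy
    have hfid : f = LinearMap.id := by
      ext x
      rw [hs x, hs1, one_smul]
      rfl
    rw [hfid, LinearMap.det_id, one_smul]
    rfl
  · -- non-scalar case: Cayley–Hamilton
    have hrel : ∀ x, f (f x) - (a + 1) • f x + a • x = 0 := by
      intro x
      obtain ⟨cx, hcx⟩ := hgen _ (hf x)
      have hfx : f x = x + cx • t := by rw [← hcx]; abel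
      have hffx : f (f x) = f x + (cx * a) • t := by
        conv_lhs => rw [hfx]
        rw [map_add, map_smul, hft, smul_smul]
      rw [hffx]
      have e : f x + (cx * a) • t - (a + 1) • f x + a • x = (cx * a) • t - a • (f x - x) := by
        rw [add_smul, one_smul, smul_sub]; abel
      rw [e, hcx, smul_smul, mul_comm a cx, sub_self]
    have hdet := Fermat.Agent.Ribet.H403.det_eq_of_quadratic_of_not_scalar h2 f (a + 1) a hrel hsc
    rw [hdet, hft]

end LinAlg

end Fermat.Agent.Ribet.H109
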