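import Fermat.Agent.Ribet.H375.ELOCOrdSpec
import Fermat.Agent.Ribet.H403.DetCyc
import Fermat.Agent.S12.H411.Rat
import Fermat.Agent.Ribet.H109.LineLin

/-!
# Row 38, WALL-p, leaf ELOC-ord / LINE (helper109)

`elocLine : Fermat.Agent.Ribet.H375.ELOCLineStatement`.

`W` an integral Weierstrass curve with good reduction at the odd prime `p`, `E[p]` irreducible,
`A` a valuation ring of `ℚ̄` over `p`, `I` its inertia group.  The points of `E[p]` in the kernel
of reduction form a subspace `L` (`Lib/Red`), proper by hypothesis, hence `L = ⟨t⟩`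
(`dim E[p] = 2`).  Inertia moves points only inside `L` (`S12.H411`), so `σ t = det(σ) t`
(linear algebra, `LineLin.lean`) and `det = χ` (`H403`).
-/

set_option autoImplicit false
set_option linter.unusedSectionVars false
set_option linter.style.haveILetI false

open WeierstrassCurve WeierstrassCurve.Affine WeierstrassCurve.Affine.Point

namespace Fermat.Agent.Ribet.H109

open Fermat.Agent.Ribet.Spec Fermat.Agent.Ribet.H944.Wall Fermat.Agent.Ribet.H375
open Fermat.Agent.S05.SameRed (InKer IntegralCoeffs)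
open Fermat.Agent.Lib.Red.H290 Fermat.Agent.S15.H242

/-- An irreducible `E[p]` of rank two has a non-scalar element in its Galois image. -/
theorem nonscalar_of_irreducible_h109 (E : WeierstrassCurve ℚ) (hΔ : E.Δ ≠ 0) (p : ℕ)
    [Fact p.Prime]
    (hirr : GaloisRepIsIrreducible (K := AlgebraicClosure ℚ) ℚ E p) :
    ∃ h : Fermat.Agent.Ribet.H403.GQ,
      ¬ ∃ s : ZMod p, ∀ x : Fermat.Agent.Ribet.H403.Tors E p, h • x = s • x := by
  by_contra hcon
  push Not at hcon
  have hdim : Module.finrank (ZMod p) (Fermat.Agent.Ribet.H403.Tors E p) = 2 :=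
    Fermat.Agent.Ribet.H403.finrank_tors E hΔ p
  obtain ⟨hnt, hirr'⟩ := hirr
  obtain ⟨x, hx⟩ := exists_ne (0 : Fermat.Agent.Ribet.H403.Tors E p)
  have hst : IsGaloisStable (K := AlgebraicClosure ℚ) ℚ
      (Submodule.span (ZMod p) {x}) := by
    intro σ y hy
    obtain ⟨s, hs⟩ := hcon σ
    rw [hs y]
    exact Submodule.smul_mem _ _ hy
  rcases hirr' _ hst with h | h
  · rw [Submodule.span_singleton_eq_bot] at h
    exact hx h
  · have h1 := finrank_span_singleton (K := ZMod p) hx
    rw [h, finrank_top, hdim] at h1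
    omega

section Ker

variable (W : WeierstrassCurve ℤ) (p : ℕ) [Fact p.Prime]
  (A : ValuationSubring (AlgebraicClosure ℚ))

theorem integralCoeffs_h109 :
    IntegralCoeffs ((W.map (Int.castRingHom ℚ))⁄(AlgebraicClosure ℚ)) A.valuation :=
  (isRedOf_int A W (IsLocalRing.residue A)).integralCoeffs

theorem inE1_nsmul (n : ℕ) {x : ETorsion (W.map (Int.castRingHom ℚ)) p}
    (hx : InE1 (W.map (Int.castRingHom ℚ)) p A x) :
    InE1 (W.map (Int.castRingHom ℚ)) p A (n • x) := by
  induction n with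
  | zero =>
    rw [zero_smul]
    exact Fermat.Agent.S05.SameRed.inKer_zero
  | succ n ih =>
    rw [succ_nsmul]
    exact inKer_add (integralCoeffs_h109 W A) ih hx

/-- The points of `E[p]` in the kernel of reduction, as a subspace. -/
def redKer : Submodule (ZMod p) (ETorsion (W.map (Int.castRingHom ℚ)) p) where
  carrier := {x | InE1 (W.map (Int.castRingHom ℚ)) p A x}
  add_mem' := fun {a b} ha hb => by
    show InE1 (W.map (Int.castRingHom ℚ)) p A (a + b)
    exact inKer_add (integralCoeffs_h109 W A) ha hb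
  zero_mem' := by
    show InE1 (W.map (Int.castRingHom ℚ)) p A 0
    exact Fermat.Agent.S05.SameRed.inKer_zero
  smul_mem' := fun c x hx => by
    have h1 : c • x = c.val • x := by
      rw [← Nat.cast_smul_eq_nsmul (ZMod p), ZMod.natCast_zmod_val]
    show InE1 (W.map (Int.castRingHom ℚ)) p A (c • x)
    rw [h1]
    exact inE1_nsmul W p A c.val hx

theorem mem_redKer {x : ETorsion (W.map (Int.castRingHom ℚ)) p} :
    x ∈ redKer W p A ↔ InE1 (W.map (Int.castRingHom ℚ)) p A x := Iff.rfl

end Ker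

/-- **Leaf LINE of ELOC-ord.** -/
theorem elocLine : Fermat.Agent.Ribet.H375.ELOCLineStatement := by
  classical
  intro W p hΔ hp hp2 hgood hirr A hA hex
  haveI : Fact p.Prime := ⟨hp⟩
  obtain ⟨x₀, hx₀⟩ := hex
  have hΔQ : (W.map (Int.castRingHom ℚ)).Δ ≠ 0 := by
    rw [WeierstrassCurve.map_Δ]
    simpa using hΔ
  have h2 : Module.finrank (ZMod p) (ETorsion (W.map (Int.castRingHom ℚ)) p) = 2 :=
    Fermat.Agent.Ribet.H403.finrank_tors (W.map (Int.castRingHom ℚ)) hΔQ p
  haveI := Fermat.Agent.Ribet.H403.finite_tors (W.map (Int.castRingHom ℚ)) hΔQ p hp.one_lt.le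
  haveI : Module.Finite (ZMod p) (ETorsion (W.map (Int.castRingHom ℚ)) p) :=
    Module.Finite.of_finite
  have hL : redKer W p A ≠ ⊤ := by
    intro htop
    apply hx₀
    rw [← mem_redKer, htop]
    exact Submodule.mem_top
  obtain ⟨t, ht, hgen⟩ := exists_generator_of_ne_top h2 (redKer W p A) hL
  -- inertia moves points inside the kernel of reduction
  have hred := isRedOf_int A W (IsLocalRing.residue A)
  have hφ : KerMax A (IsLocalRing.residue A) := kerMax_residue A
  have hΔκ := Fermat.Agent.S12.H411.Δ_residue_ne_zero W hp A hA hgood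
  have hI : ∀ σ ∈ A.inertiaSubgroupIn ℚ, ∀ x : ETorsion (W.map (Int.castRingHom ℚ)) p,
      σ • x - x ∈ redKer W p A := by
    intro σ hσ x
    rw [mem_redKer]
    exact Fermat.Agent.S12.H411.inKer_smul_sub_of_mem_inertia hred hφ hΔκ hσ
      (x : ((W.map (Int.castRingHom ℚ))⁄(AlgebraicClosure ℚ)).Point)
  have hnat : ∀ (c : ZMod p) (y : ETorsion (W.map (Int.castRingHom ℚ)) p),
      c • y = c.val • y := by
    intro c y
    rw [← Nat.cast_smul_eq_nsmul (ZMod p), ZMod.natCast_zmod_val]
  refine ⟨t, ht, ?_, ?_, ?_⟩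
  · -- `σ t = χ(σ) t`
    intro σ hσ c hc
    have hns := nonscalar_of_irreducible_h109 (W.map (Int.castRingHom ℚ)) hΔQ p hirr
    have hdet := Fermat.Agent.Ribet.H403.det_eq_of_apply_root W p hΔ hns σ c hc
    have h := apply_eq_det_smul_of_sub_mem h2
      (galoisRepModuleEnd (S := ℚ) (K := AlgebraicClosure ℚ) (W.map (Int.castRingHom ℚ)) p σ)
      (redKer W p A) hL t hgen (fun x => hI σ hσ x)
    rw [hdet, galoisRepModuleEnd_apply, Nat.cast_smul_eq_nsmul] at h
    exact h
  · -- `σ x = x + n t`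
    intro x σ hσ
    obtain ⟨c, hc⟩ := hgen _ (hI σ hσ x)
    refine ⟨c.val, ?_⟩
    rw [← hnat, ← hc]
    abel
  · -- the kernel of reduction is `⟨t⟩`
    intro x hx
    obtain ⟨c, hc⟩ := hgen x hx
    exact ⟨c.val, by rw [← hnat]; exact hc⟩

end Fermat.Agent.Ribet.H109
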