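import Fermat.Agent.Ribet.H109.PeuRoots
import Fermat.Agent.Ribet.H109.Line
import Fermat.Agent.Ribet.H52.ElocFrey
import Fermat.Agent.Ribet.H375.ELOCOrdFinal

/-!
# Row 38 / S39, W-form: ELOC-ord for a curve with multiplicative reduction, `p ∣ v_p(Δ)`
(helper109)

`W` an integral Weierstrass curve, `p` odd, `p ∣ Δ`, `p ∤ c₄` (multiplicative reduction at `p`),
`p ∣ v_p(Δ)` (`IsPeuRamifieeAt`), `W[p]` irreducible, `A` a valuation ring of `ℚ̄` over `p` with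
ordinary inertia action.  Then `H944.Wall.ELOCOrdAt`: the line `⟨t⟩` with inertia acting by `χ`,
trivial action on the quotient, and the peu ramifiée subgroup acts trivially.

This is helper52's ELOC-Frey (`H52.frey_elocOrdAt_h52`) for an arbitrary curve: the roots of the
2-division cubic are no longer rational (`PeuRoots.lean`), inertia may swap the two node roots
(`PeuNode.lean`).  `π = p ^ (v_p(Δ) / p)`.

* `elocOrdAt_mult_h109`  : the multiplicative case.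
* `elocOrdPeu : ELOCOrdPeuStatement` : good or multiplicative-peu, irreducible form.
-/

set_option autoImplicit false
set_option linter.unusedSectionVars false
set_option linter.unusedVariables false
set_option linter.style.haveILetI false

open WeierstrassCurve WeierstrassCurve.Affine WeierstrassCurve.Affine.Point

namespace Fermat.Agent.Ribet.H109.Peu

open Fermat.Agent.S05 Fermat.Agent.S05.SameRed Fermat.Agent.S05.Assemble
open Fermat.Agent.S13.H64 (nodeTorsion_of_c3c)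
open Fermat.Agent.Ribet.Spec Fermat.Agent.Ribet.H944.Wall Fermat.Agent.Ribet.H375
open Fermat.Agent.Ribet.H52

/-- **(ELOC-ord, peu ramifiée form)**: `W` semistable at `p` with `p ∣ v_p(Δ)` (good reduction
or multiplicative reduction with `p ∣ v_p(Δ)`), `W[p]` irreducible, ordinary inertia action:
line + peu. -/
def ELOCOrdPeuStatement : Prop :=
  ∀ (W : WeierstrassCurve ℤ) (p : ℕ), W.Δ ≠ 0 → p.Prime → p ≠ 2 →
    ((p : ℤ) ∣ W.Δ → ¬ (p : ℤ) ∣ W.c₄) →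
    (W.map (Int.castRingHom ℚ)).IsPeuRamifieeAt p p →
    W.ModRepIsIrreducible p →
    ∀ A : ValuationSubring (AlgebraicClosure ℚ), A.LiesOverPrime p →
    OrdinaryInertiaAt (W.map (Int.castRingHom ℚ)) p A →
    ELOCOrdAt (W.map (Int.castRingHom ℚ)) p A

section coeffs

variable (W : WeierstrassCurve ℤ)

theorem baseChange_Δ_h109 :
    ((W.map (Int.castRingHom ℚ))⁄Qb).Δ = ((W.Δ : ℤ) : Qb) := by
  show ((W.map (Int.castRingHom ℚ)).map (algebraMap ℚ Qb)).Δ = _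
  rw [WeierstrassCurve.map_Δ, WeierstrassCurve.map_Δ]
  simp

theorem baseChange_c₄_h109 :
    ((W.map (Int.castRingHom ℚ))⁄Qb).c₄ = ((W.c₄ : ℤ) : Qb) := by
  show ((W.map (Int.castRingHom ℚ)).map (algebraMap ℚ Qb)).c₄ = _
  rw [WeierstrassCurve.map_c₄, WeierstrassCurve.map_c₄]
  simp

end coeffs

section sigma

variable (E : WeierstrassCurve ℚ) (σ : Qb ≃ₐ[ℚ] Qb)

theorem sigma_a₁_h109 : (σ : Qb →+* Qb) (E⁄Qb).a₁ = (E⁄Qb).a₁ := by
  show σ (algebraMap ℚ Qb E.a₁) = algebraMap ℚ Qb E.a₁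
  exact σ.commutes _

theorem sigma_a₃_h109 : (σ : Qb →+* Qb) (E⁄Qb).a₃ = (E⁄Qb).a₃ := by
  show σ (algebraMap ℚ Qb E.a₃) = algebraMap ℚ Qb E.a₃
  exact σ.commutes _

theorem sigma_b₂_h109 : (σ : Qb →+* Qb) (E⁄Qb).b₂ = (E⁄Qb).b₂ := by
  have h : (E⁄Qb).b₂ = algebraMap ℚ Qb E.b₂ := WeierstrassCurve.map_b₂ E (algebraMap ℚ Qb)
  rw [h]
  exact σ.commutes _

theorem sigma_b₄_h109 : (σ : Qb →+* Qb) (E⁄Qb).b₄ = (E⁄Qb).b₄ := by
  have h : (E⁄Qb).b₄ = algebraMap ℚ Qb E.b₄ := WeierstrassCurve.map_b₄ E (algebraMap ℚ Qb)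
  rw [h]
  exact σ.commutes _

theorem sigma_b₆_h109 : (σ : Qb →+* Qb) (E⁄Qb).b₆ = (E⁄Qb).b₆ := by
  have h : (E⁄Qb).b₆ = algebraMap ℚ Qb E.b₆ := WeierstrassCurve.map_b₆ E (algebraMap ℚ Qb)
  rw [h]
  exact σ.commutes _

end sigma

/-- `v(Δ) = v(p ^ k) ^ p` when `p ∣ v_p(Δ)`. -/
theorem exists_pi_h109 (W : WeierstrassCurve ℤ) (hΔ : W.Δ ≠ 0) {p : ℕ} (hp : p.Prime)
    (hfin : (W.map (Int.castRingHom ℚ)).IsPeuRamifieeAt p p)
    (A : ValuationSubring Qb) (hA : A.LiesOverPrime p) :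
    ∃ k : ℕ, A.valuation (((p ^ k : ℕ) : ℚ) : Qb) ^ p = A.valuation ((W.Δ : ℤ) : Qb) := by
  haveI : Fact p.Prime := ⟨hp⟩
  unfold WeierstrassCurve.IsPeuRamifieeAt at hfin
  rw [WeierstrassCurve.map_Δ] at hfin
  have h1 : padicValRat p ((Int.castRingHom ℚ) W.Δ) = (padicValInt p W.Δ : ℤ) := by
    show padicValRat p ((W.Δ : ℤ) : ℚ) = _
    exact padicValRat.of_int
  rw [h1] at hfin
  have hfin' : p ∣ padicValInt p W.Δ := by exact_mod_cast hfin
  obtain ⟨k, hk⟩ := hfin'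
  set m := padicValInt p W.Δ with hm
  have hdvd : (p : ℤ) ^ m ∣ W.Δ := (padicValInt_dvd_iff m W.Δ).mpr (Or.inr le_rfl)
  obtain ⟨u, hu⟩ := hdvd
  have hpu : ¬ (p : ℤ) ∣ u := by
    rintro ⟨w, rfl⟩
    have h2 : (p : ℤ) ^ (m + 1) ∣ W.Δ := ⟨w, by rw [hu]; ring⟩
    rcases (padicValInt_dvd_iff (m + 1) W.Δ).mp h2 with h | h
    · exact hΔ h
    · omega
  refine ⟨k, ?_⟩
  have hvu : A.valuation ((u : ℤ) : Qb) = 1 := val_int_eq_one hA hp hpu
  rw [hu]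
  push_cast
  rw [map_mul, hvu, mul_one, map_pow, map_pow, ← pow_mul, hk, mul_comm]

/-- **ELOC-ord, multiplicative reduction with `p ∣ v_p(Δ)`.** -/
theorem elocOrdAt_mult_h109 (W : WeierstrassCurve ℤ) (p : ℕ) (hΔ : W.Δ ≠ 0) (hp : p.Prime)
    (hp2 : p ≠ 2) (hmult : (p : ℤ) ∣ W.Δ) (hc₄ : ¬ (p : ℤ) ∣ W.c₄)
    (hfin : (W.map (Int.castRingHom ℚ)).IsPeuRamifieeAt p p)
    (hirr : W.ModRepIsIrreducible p)
    (A : ValuationSubring Qb) (hA : A.LiesOverPrime p)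
    (hO : OrdinaryInertiaAt (W.map (Int.castRingHom ℚ)) p A) :
    ELOCOrdAt (W.map (Int.castRingHom ℚ)) p A := by
  classical
  haveI : Fact p.Prime := ⟨hp⟩
  set E : WeierstrassCurve ℚ := W.map (Int.castRingHom ℚ) with hE
  have hΔQ : E.Δ ≠ 0 := by
    rw [hE, WeierstrassCurve.map_Δ]
    simpa using hΔ
  have hW : IntegralCoeffs (E⁄Qb) A.valuation := Fermat.Agent.Ribet.H109.integralCoeffs_h109 W A
  have h2 : A.valuation (2 : Qb) = 1 := val_two_eq_one hA hp hp2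
  have hodd : Odd p := hp.odd_of_ne_two hp2
  -- the node roots
  have hΔb : (E⁄Qb).Δ = ((W.Δ : ℤ) : Qb) := baseChange_Δ_h109 W
  have hc₄b : (E⁄Qb).c₄ = ((W.c₄ : ℤ) : Qb) := baseChange_c₄_h109 W
  have hΔb0 : (E⁄Qb).Δ ≠ 0 := by
    rw [hΔb]
    exact_mod_cast hΔ
  have hΔlt : A.valuation (E⁄Qb).Δ < 1 := by
    rw [hΔb]; exact val_int_lt_one hA hmult
  have hc₄1 : A.valuation (E⁄Qb).c₄ = 1 := by
    rw [hc₄b]; exact val_int_eq_one hA hp hc₄
  obtain ⟨e₁, α, β, hr, he₁, hα, hβ, hα0, hαΔ⟩ :=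
    exists_node_roots_h109 hW h2 hΔb0 hΔlt hc₄1
  obtain ⟨k, hk⟩ := exists_pi_h109 W hΔ hp hfin A hA
  set π : Qb := (((p ^ k : ℕ) : ℚ) : Qb) with hπdef
  have hπ0 : π ≠ 0 := by
    rw [hπdef]
    have : ((p ^ k : ℕ) : ℚ) ≠ 0 := by exact_mod_cast (pow_pos hp.pos k).ne'
    exact_mod_cast this
  have hπ : A.valuation π ^ p = A.valuation α ^ 2 := by
    rw [hαΔ, hΔb]; exact hk
  have hC3 : NodeTorsion (E⁄Qb) A.valuation e₁ α p := nodeTorsion_of_c3c h2 hr hα0 hα hβ hodd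
  refine elocOrdAt_core_h52 hΔQ hp hp2 hA hW ?_ ?_ ?_ ?_
  · -- det = χ
    intro σ hσ c hc
    have hns := Fermat.Agent.Ribet.H109.nonscalar_of_irreducible_h109 E hΔQ p hirr
    exact Fermat.Agent.Ribet.H403.det_eq_of_apply_root W p hΔ hns σ c hc
  · -- same reduction
    intro σ hσ x hx
    obtain ⟨Q, hQ⟩ := x
    have hP : p • Q = 0 := by
      have := (Submodule.mem_torsionBy_iff _ _).mp hQ
      rwa [natCast_zsmul] at this
    rcases Q with _ | ⟨x₀, y₀, h₀⟩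
    · exact absurd trivial hx
    · have hx₀ : A.valuation x₀ ≤ 1 := not_lt.mp hx
      have h' : (E⁄Qb).Nonsingular ((σ : Qb →+* Qb) x₀) ((σ : Qb →+* Qb) y₀) :=
        (WeierstrassCurve.Affine.baseChange_nonsingular E σ.toAlgHom.injective x₀ y₀).mpr h₀
      have hsmul : σ • Point.some x₀ y₀ h₀ =
          Point.some ((σ : Qb →+* Qb) x₀) ((σ : Qb →+* Qb) y₀) h' := rfl
      show InKer (E⁄Qb) A.valuation (σ • Point.some x₀ y₀ h₀ - Point.some x₀ y₀ h₀)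
      rw [hsmul]
      refine inKer_sub_of_node_sym_h109 hW h2 (σ : Qb →+* Qb) (inertia_res A hσ)
        (sigma_a₁_h109 E σ) (sigma_a₃_h109 E σ) (sigma_b₂_h109 E σ) (sigma_b₄_h109 E σ)
        (sigma_b₆_h109 E σ) hodd hr he₁ hα hβ hπ0 ?_ hπ hC3 h₀ h' hP hx₀
      show σ (algebraMap ℚ Qb ((p ^ k : ℕ) : ℚ)) = algebraMap ℚ Qb ((p ^ k : ℕ) : ℚ)
      exact σ.commutes _
  · -- rationality of `v η`
    intro x hx
    have hPx : p • (x : (E⁄Qb).Point) = 0 := by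
      have := (Submodule.mem_torsionBy_iff _ _).mp x.2
      rwa [natCast_zsmul] at this
    have hx' : ¬ InKer (E⁄Qb) A.valuation (x : (E⁄Qb).Point) := hx
    rcases hxc : (x : (E⁄Qb).Point) with _ | ⟨x₀, y₀, h₀⟩
    · rw [hxc] at hx'
      exact absurd trivial hx'
    · rw [hxc] at hx' hPx
      obtain ⟨j, hj⟩ := val_eta_of_node_h52 hW h2 hodd hr he₁ hα hβ hπ hC3 h₀ hPx
        (not_lt.mp hx')
      refine ⟨((p ^ k : ℕ) : ℚ) ^ j, pow_ne_zero _ (by exact_mod_cast (pow_pos hp.pos k).ne'), ?_⟩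
      rw [etaC_some_h52, hj]
      congr 1
      rw [map_pow]
      rfl
  · exact exists_integral_of_ordinary_h52 W hΔ hp hp2 A hA hW hO

/-- **ELOC-ord, peu ramifiée form**: unconditional. -/
theorem elocOrdPeu : ELOCOrdPeuStatement := by
  intro W p hΔ hp hp2 hsemi hfin hirr A hA hO
  by_cases hgood : (p : ℤ) ∣ W.Δ
  · exact elocOrdAt_mult_h109 W p hΔ hp hp2 hgood (hsemi hgood) hfin hirr A hA hO
  · exact Fermat.Agent.Ribet.H375.elocOrdGoodIrr W p hΔ hp hp2 hgood hirr A hA hO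

end Fermat.Agent.Ribet.H109.Peu
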