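import Fermat.Agent.S13.H64.AtP

/-!
# Row 38 / S39, W-form: the node analysis when inertia may SWAP the two node roots (helper109)

`S13.H64.inKer_sub_of_node` (helper64) assumes that `σ` fixes the node root `e₁` of the
2-division cubic; this holds for the Frey curve (rational 2-torsion) but not for a general curve
with multiplicative reduction (the two node roots `e₁`, `e₁ + α` are conjugate when `v(Δ)` is
odd).  Here `σ` is only assumed to fix the coefficients: then `σ` fixes the SIMPLE root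
`e₁ + β`, hence the midpoint `e₁ + α / 2` of the node roots, and the scaled argument
`inKer_sub_of_scaled` runs with the midpoint as centre.

* `Roots.map_eq_h109`       : `σ` permutes the roots.
* `sigma_simple_h109`       : `σ (e₁ + β) = e₁ + β`.
* `sigma_mid_h109`          : `σ (e₁ + α / 2) = e₁ + α / 2`.
* `inKer_sub_of_node_sym_h109` : `σ P - P ∈ E₁` for an integral odd torsion point `P`.

Mathlib + S05/S13 generic lemmas only.
-/

set_option autoImplicit false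
set_option linter.unusedSectionVars false
set_option linter.unusedVariables false

namespace Fermat.Agent.Ribet.H109.Peu

open WeierstrassCurve WeierstrassCurve.Affine WeierstrassCurve.Affine.Point
open Fermat.Agent.S05 Fermat.Agent.S05.SameRed Fermat.Agent.S05.Assemble
open Fermat.Agent.S13.H64

variable {K : Type*} [Field K] [DecidableEq K]
  {Γ₀ : Type*} [LinearOrderedCommGroupWithZero Γ₀]
variable {W : Affine K} {v : Valuation K Γ₀}

/-- The cubic `4 (X - r₁)(X - r₂)(X - r₃)` in coefficient form. -/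
theorem Roots.cubic_h109 {r₁ r₂ r₃ : K} (hr : Roots W r₁ r₂ r₃) (z : K) :
    4 * z ^ 3 + W.b₂ * z ^ 2 + 2 * W.b₄ * z + W.b₆ = 4 * ((z - r₁) * (z - r₂) * (z - r₃)) := by
  rw [hr.b₂, hr.b₄, hr.b₆]
  ring

/-- A ring endomorphism fixing `b₂, b₄, b₆` permutes the roots of the 2-division cubic. -/
theorem Roots.map_eq_h109 (h2 : v (2 : K) = 1) {r₁ r₂ r₃ : K} (hr : Roots W r₁ r₂ r₃)
    (σ : K →+* K) (hσ₂ : σ W.b₂ = W.b₂) (hσ₄ : σ W.b₄ = W.b₄) (hσ₆ : σ W.b₆ = W.b₆) :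
    σ r₃ = r₁ ∨ σ r₃ = r₂ ∨ σ r₃ = r₃ := by
  have h20 : (2 : K) ≠ 0 := by
    intro h0; rw [h0, _root_.map_zero] at h2; exact zero_ne_one h2
  have h40 : (4 : K) ≠ 0 := by
    have : (4 : K) = 2 * 2 := by norm_num
    rw [this]; exact mul_ne_zero h20 h20
  have h0 : 4 * r₃ ^ 3 + W.b₂ * r₃ ^ 2 + 2 * W.b₄ * r₃ + W.b₆ = 0 := by
    rw [Roots.cubic_h109 hr]; ring
  have h1 := congrArg σ h0
  simp only [map_add, map_mul, map_pow, map_ofNat, hσ₂, hσ₄, hσ₆, _root_.map_zero] at h1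
  rw [Roots.cubic_h109 hr] at h1
  rcases mul_eq_zero.mp h1 with h | h
  · exact absurd h h40
  rcases mul_eq_zero.mp h with h | h
  · rcases mul_eq_zero.mp h with h | h
    · exact Or.inl (sub_eq_zero.mp h)
    · exact Or.inr (Or.inl (sub_eq_zero.mp h))
  · exact Or.inr (Or.inr (sub_eq_zero.mp h))

/-- `σ` acts trivially on the residue field and fixes the coefficients: it fixes the simple
root. -/
theorem sigma_simple_h109 (h2 : v (2 : K) = 1)
    (σ : K →+* K) (hres : ∀ z, v z ≤ 1 → v (σ z - z) < 1)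
    (hσ₂ : σ W.b₂ = W.b₂) (hσ₄ : σ W.b₄ = W.b₄) (hσ₆ : σ W.b₆ = W.b₆)
    {e₁ α β : K} (hr : Roots W e₁ (e₁ + α) (e₁ + β)) (he₁ : v e₁ ≤ 1) (hα : v α < 1)
    (hβ : v β = 1) : σ (e₁ + β) = e₁ + β := by
  have hr₃ : v (e₁ + β) ≤ 1 := val_add_le_one he₁ hβ.le
  have hlt := hres (e₁ + β) hr₃
  rcases Roots.map_eq_h109 h2 hr σ hσ₂ hσ₄ hσ₆ with h | h | h
  · exfalso
    rw [h] at hlt
    have : e₁ - (e₁ + β) = -β := by ring
    rw [this, Valuation.map_neg, hβ] at hlt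
    exact lt_irrefl _ hlt
  · exfalso
    rw [h] at hlt
    have : e₁ + α - (e₁ + β) = α - β := by ring
    rw [this, val_sub_eq_of_lt' (by rw [hβ]; exact hα), hβ] at hlt
    exact lt_irrefl _ hlt
  · exact h

/-- … hence the midpoint of the two node roots. -/
theorem sigma_mid_h109 (h2 : v (2 : K) = 1)
    (σ : K →+* K) (hres : ∀ z, v z ≤ 1 → v (σ z - z) < 1)
    (hσ₂ : σ W.b₂ = W.b₂) (hσ₄ : σ W.b₄ = W.b₄) (hσ₆ : σ W.b₆ = W.b₆)
    {e₁ α β : K} (hr : Roots W e₁ (e₁ + α) (e₁ + β)) (he₁ : v e₁ ≤ 1) (hα : v α < 1)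
    (hβ : v β = 1) : σ (e₁ + α / 2) = e₁ + α / 2 := by
  have h20 : (2 : K) ≠ 0 := by
    intro h0; rw [h0, _root_.map_zero] at h2; exact zero_ne_one h2
  have h40 : (4 : K) ≠ 0 := by
    have : (4 : K) = 2 * 2 := by norm_num
    rw [this]; exact mul_ne_zero h20 h20
  have hs := sigma_simple_h109 h2 σ hres hσ₂ hσ₄ hσ₆ hr he₁ hα hβ
  have hm : e₁ + α / 2 = (-(W.b₂) / 4 - (e₁ + β)) / 2 := by
    rw [hr.b₂]
    field_simp
    ring
  rw [hm, map_div₀, map_sub, map_div₀, map_neg, hσ₂, hs, map_ofNat, map_ofNat]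

/-- **[Node], symmetric form.**  As `S13.H64.inKer_sub_of_node`, with `σ e₁ = e₁` replaced by
`σ` fixing the midpoint of the node roots. -/
theorem inKer_sub_of_node_mid_h109 (hW : IntegralCoeffs W v) (h2 : v (2 : K) = 1)
    (σ : K →+* K) (hres : ∀ z, v z ≤ 1 → v (σ z - z) < 1)
    (hσ₁ : σ W.a₁ = W.a₁) (hσ₃ : σ W.a₃ = W.a₃)
    {n : ℕ} (hn : Odd n)
    {e₁ α β : K} (hr : Roots W e₁ (e₁ + α) (e₁ + β)) (he₁ : v e₁ ≤ 1) (hα : v α < 1)
    (hβ : v β = 1) (hσm : σ (e₁ + α / 2) = e₁ + α / 2)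
    {π : K} (hπ0 : π ≠ 0) (hσπ : σ π = π) (hπ : v π ^ n = v α ^ 2)
    (hC3 : NodeTorsion W v e₁ α n)
    {x y : K} (h : W.Nonsingular x y) (h' : W.Nonsingular (σ x) (σ y))
    (hP : n • Point.some x y h = 0) (hx : v x ≤ 1) :
    InKer W v (Point.some (σ x) (σ y) h' - Point.some x y h) := by
  have hy : v y ≤ 1 := Assemble.val_y_le_one hW h.1 hx
  have h4 := val_four (v := v) h2
  have hn0 : n ≠ 0 := hn.pos.ne'
  have hxe : v (x - e₁) ≤ 1 := val_sub_le_one hx he₁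
  have hr₂ : v (e₁ + α) ≤ 1 := val_add_le_one he₁ hα.le
  have hr₃ : v (e₁ + β) ≤ 1 := val_add_le_one he₁ hβ.le
  have hβα : v (β - α) = 1 := by
    rw [val_sub_eq_of_lt (by rw [hβ]; exact hα), hβ]
  rcases hxe.lt_or_eq with hlt | heq
  · -- off `E₀`
    obtain ⟨hαx, j, hj⟩ := hC3 x y h hP hlt
    have hvc : v (π ^ j) = v (x - e₁) := by
      apply pow_eq_pow_imp_eq hn0
      rw [hj, map_pow, ← pow_mul, mul_comm, pow_mul, hπ, ← pow_mul]
    have hxα : v (x - (e₁ + α)) = v (x - e₁) := by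
      have : x - (e₁ + α) = (x - e₁) - α := by ring
      rw [this, val_sub_eq_of_lt hαx]
    have hxβ : v (x - (e₁ + β)) = 1 := by
      have : x - (e₁ + β) = (x - e₁) - β := by ring
      rw [this, val_sub_eq_of_lt' (by rw [hβ]; exact hlt), hβ]
    have hη : v (2 * y + W.a₁ * x + W.a₃) = v (π ^ j) := by
      apply pow_eq_pow_imp_eq (n := 2) (by norm_num)
      rw [← map_pow, hr.eta_sq h.1, map_mul, map_mul, map_mul, h4, hxα, hxβ, hvc]
      simp [pow_two]
    have hα2 : v (α / 2) = v α := by rw [map_div₀, h2, div_one]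
    have hxm : v (x - (e₁ + α / 2)) = v (x - e₁) := by
      have : x - (e₁ + α / 2) = (x - e₁) - α / 2 := by ring
      rw [this, val_sub_eq_of_lt (by rw [hα2]; exact hαx)]
    exact inKer_sub_of_scaled hW h2 σ hres hσ₁ hσ₃ h h' hx (c := π ^ j) (e := e₁ + α / 2)
      (pow_ne_zero _ hπ0) (by rw [map_pow, hσπ]) hσm hη (by rw [hvc, hxm])
  · -- on `E₀`
    have hη1 : v (2 * y + W.a₁ * x + W.a₃) = 1 := by
      apply val_eta_eq_one_of_integral_torsion hW h2 hn h hP hx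
      intro hη
      have hsq := val_eta_sq_lt_one hη
      rw [hr.eta_sq h.1, map_mul, h4, one_mul] at hsq
      have hxα : v (x - (e₁ + α)) = 1 := by
        have : x - (e₁ + α) = (x - e₁) - α := by ring
        rw [this, val_sub_eq_of_lt (by rw [heq]; exact hα), heq]
      have h3 : v (x - (e₁ + β)) < 1 := by
        rw [map_mul, map_mul, heq, hxα, one_mul, one_mul] at hsq
        exact hsq
      have h31 : v (e₁ + β - e₁) = 1 := by
        have : e₁ + β - e₁ = β := by ring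
        rw [this, hβ]
      have h32 : v (e₁ + β - (e₁ + α)) = 1 := by
        have : e₁ + β - (e₁ + α) = β - α := by ring
        rw [this, hβα]
      exact hr.swap₁₃.val_WX_eq_one hW h2 hx hr₃ hr₂ he₁ hη h3 h32 h31
    exact inKer_sub_of_scaled hW h2 σ hres hσ₁ hσ₃ h h' hx (c := 1) (e := 0) one_ne_zero
      (map_one σ) (map_zero σ) (by rw [hη1, map_one]) (by rw [sub_zero, map_one]; exact hx)

/-- **[Node], symmetric form, coefficients fixed.** -/
theorem inKer_sub_of_node_sym_h109 (hW : IntegralCoeffs W v) (h2 : v (2 : K) = 1)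
    (σ : K →+* K) (hres : ∀ z, v z ≤ 1 → v (σ z - z) < 1)
    (hσ₁ : σ W.a₁ = W.a₁) (hσ₃ : σ W.a₃ = W.a₃)
    (hσb₂ : σ W.b₂ = W.b₂) (hσb₄ : σ W.b₄ = W.b₄) (hσb₆ : σ W.b₆ = W.b₆)
    {n : ℕ} (hn : Odd n)
    {e₁ α β : K} (hr : Roots W e₁ (e₁ + α) (e₁ + β)) (he₁ : v e₁ ≤ 1) (hα : v α < 1)
    (hβ : v β = 1)
    {π : K} (hπ0 : π ≠ 0) (hσπ : σ π = π) (hπ : v π ^ n = v α ^ 2)
    (hC3 : NodeTorsion W v e₁ α n)
    {x y : K} (h : W.Nonsingular x y) (h' : W.Nonsingular (σ x) (σ y))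
    (hP : n • Point.some x y h = 0) (hx : v x ≤ 1) :
    InKer W v (Point.some (σ x) (σ y) h' - Point.some x y h) :=
  inKer_sub_of_node_mid_h109 hW h2 σ hres hσ₁ hσ₃ hn hr he₁ hα hβ
    (sigma_mid_h109 h2 σ hres hσb₂ hσb₄ hσb₆ hr he₁ hα hβ) hπ0 hσπ hπ hC3 h h' hP hx

end Fermat.Agent.Ribet.H109.Peu
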