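import Fermat.Agent.Ribet.H109.PeuNode

/-!
# Row 38 / S39, W-form: the roots of the 2-division cubic at a prime of multiplicative reduction
(helper109)

`K` algebraically closed with a valuation `v`, `v 2 = 1`, `W` with `v`-integral coefficients,
`v Δ < 1`, `v c₄ = 1` (multiplicative reduction).  Then the 2-division cubic has roots
`e₁, e₁ + α, e₁ + β` with `v α < 1`, `v β = 1`, `α ≠ 0` and `v α ^ 2 = v Δ`
(`exists_node_roots_h109`).  Mathlib + `S05.Assemble.Roots` only.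
-/

set_option autoImplicit false
set_option linter.unusedSectionVars false
set_option linter.unusedVariables false

namespace Fermat.Agent.Ribet.H109.Peu

open WeierstrassCurve WeierstrassCurve.Affine WeierstrassCurve.Affine.Point
open Fermat.Agent.S05 Fermat.Agent.S05.SameRed Fermat.Agent.S05.Assemble
open Polynomial

variable {K : Type*} [Field K] [DecidableEq K]
  {Γ₀ : Type*} [LinearOrderedCommGroupWithZero Γ₀]
variable {W : Affine K} {v : Valuation K Γ₀}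

theorem Roots.swap₂₃_h109 {r₁ r₂ r₃ : K} (h : Roots W r₁ r₂ r₃) : Roots W r₁ r₃ r₂ :=
  ⟨by rw [h.b₂]; ring, by rw [h.b₄]; ring, by rw [h.b₆]; ring⟩

theorem Roots.rot_h109 {r₁ r₂ r₃ : K} (h : Roots W r₁ r₂ r₃) : Roots W r₂ r₃ r₁ :=
  ⟨by rw [h.b₂]; ring, by rw [h.b₄]; ring, by rw [h.b₆]; ring⟩

/-- Over an algebraically closed field of characteristic `≠ 2` the 2-division cubic splits. -/
theorem exists_roots_h109 [IsAlgClosed K] (h20 : (2 : K) ≠ 0) (W : Affine K) :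
    ∃ r₁ r₂ r₃ : K, Roots W r₁ r₂ r₃ := by
  have h40 : (4 : K) ≠ 0 := by
    have : (4 : K) = 2 * 2 := by norm_num
    rw [this]; exact mul_ne_zero h20 h20
  set b : K := W.b₂ / 4 with hb
  set c : K := W.b₄ / 2 with hc
  set d : K := W.b₆ / 4 with hd
  have hdeg : (C (1 : K) * X ^ 3 + C b * X ^ 2 + C c * X + C d).degree ≠ 0 := by
    rw [Polynomial.degree_cubic one_ne_zero]
    norm_num
  obtain ⟨r₁, hr₁⟩ := IsAlgClosed.exists_root _ hdeg
  have hr₁' : r₁ ^ 3 + b * r₁ ^ 2 + c * r₁ + d = 0 := by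
    have := hr₁
    simp only [IsRoot.def, eval_add, eval_mul, eval_C, eval_pow, eval_X, one_mul] at this
    exact this
  set s : K := b + r₁ with hs
  set t : K := c + r₁ * s with ht
  obtain ⟨δ, hδ⟩ := IsAlgClosed.exists_pow_nat_eq (s ^ 2 - 4 * t) (n := 2) (by norm_num)
  have hb2 : W.b₂ = 4 * b := by rw [hb]; field_simp
  have hb4 : W.b₄ = 2 * c := by rw [hc]; field_simp
  have hb6 : W.b₆ = 4 * d := by rw [hd]; field_simp
  refine ⟨r₁, (-s + δ) / 2, (-s - δ) / 2, ?_, ?_, ?_⟩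
  · rw [hb2, hs]
    field_simp
    ring
  · rw [hb4]
    have e1 : r₁ * ((-s + δ) / 2) + r₁ * ((-s - δ) / 2) + (-s + δ) / 2 * ((-s - δ) / 2) =
        -(r₁ * s) + (s ^ 2 - δ ^ 2) / 4 := by
      field_simp
      ring
    rw [e1, hδ]
    have e2 : (s ^ 2 - (s ^ 2 - 4 * t)) / 4 = t := by
      field_simp
      ring
    rw [e2, ht]
    ring
  · rw [hb6]
    have e1 : r₁ * ((-s + δ) / 2) * ((-s - δ) / 2) = r₁ * ((s ^ 2 - δ ^ 2) / 4) := by
      field_simp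
      ring
    rw [e1, hδ]
    have e2 : (s ^ 2 - (s ^ 2 - 4 * t)) / 4 = t := by
      field_simp
      ring
    rw [e2, ht, hs]
    linear_combination (4 : K) * hr₁'

section val

theorem val_b₂_le_one_h109 (hW : IntegralCoeffs W v) (h2 : v (2 : K) = 1) : v W.b₂ ≤ 1 := by
  rw [WeierstrassCurve.b₂]
  refine val_add_le_one ?_ ?_
  · rw [map_pow]; exact pow_le_one₀ zero_le hW.a₁
  · exact val_mul_le_one (by rw [val_four h2]) hW.a₂

theorem val_b₄_le_one_h109 (hW : IntegralCoeffs W v) (h2 : v (2 : K) = 1) : v W.b₄ ≤ 1 := by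
  rw [WeierstrassCurve.b₄]
  refine val_add_le_one ?_ ?_
  · exact val_mul_le_one h2.le hW.a₄
  · exact val_mul_le_one hW.a₁ hW.a₃

theorem val_b₆_le_one_h109 (hW : IntegralCoeffs W v) (h2 : v (2 : K) = 1) : v W.b₆ ≤ 1 := by
  rw [WeierstrassCurve.b₆]
  refine val_add_le_one ?_ ?_
  · rw [map_pow]; exact pow_le_one₀ zero_le hW.a₃
  · exact val_mul_le_one (by rw [val_four h2]) hW.a₆

/-- The roots of the 2-division cubic are integral. -/
theorem Roots.val_le_one₃_h109 (hW : IntegralCoeffs W v) (h2 : v (2 : K) = 1)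
    {r₁ r₂ r₃ : K} (hr : Roots W r₁ r₂ r₃) : v r₃ ≤ 1 := by
  by_contra hcon
  rw [not_le] at hcon
  have h4 := val_four (v := v) h2
  have h0 : 4 * r₃ ^ 3 + W.b₂ * r₃ ^ 2 + 2 * W.b₄ * r₃ + W.b₆ = 0 := by
    rw [Roots.cubic_h109 hr]; ring
  have hsq : v r₃ ≤ v r₃ ^ 2 := by
    rw [pow_two]
    exact le_mul_of_one_le_left zero_le hcon.le
  have h1 : v (W.b₂ * r₃ ^ 2 + 2 * W.b₄ * r₃ + W.b₆) ≤ v r₃ ^ 2 := by
    refine (v.map_add _ _).trans (max_le ((v.map_add _ _).trans (max_le ?_ ?_)) ?_)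
    · rw [map_mul, map_pow]
      exact mul_le_of_le_one_left zero_le (val_b₂_le_one_h109 hW h2)
    · rw [map_mul, map_mul, h2, one_mul]
      exact (mul_le_of_le_one_left zero_le (val_b₄_le_one_h109 hW h2)).trans hsq
    · exact (val_b₆_le_one_h109 hW h2).trans (hcon.le.trans hsq)
  have h3 : v (4 * r₃ ^ 3) = v r₃ ^ 3 := by rw [map_mul, h4, one_mul, map_pow]
  have h5 : 4 * r₃ ^ 3 = -(W.b₂ * r₃ ^ 2 + 2 * W.b₄ * r₃ + W.b₆) := by
    linear_combination h0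
  rw [h5, Valuation.map_neg] at h3
  rw [h3] at h1
  have h6 : v r₃ ^ 2 < v r₃ ^ 3 := pow_lt_pow_right₀ hcon (by norm_num)
  exact absurd h1 (not_le.mpr h6)

/-- `Δ = 16 ∏ (rᵢ - rⱼ)²`. -/
theorem Roots.Δ_eq_h109 (h20 : (2 : K) ≠ 0) {r₁ r₂ r₃ : K} (hr : Roots W r₁ r₂ r₃) :
    W.Δ = 16 * ((r₁ - r₂) ^ 2 * (r₁ - r₃) ^ 2 * (r₂ - r₃) ^ 2) := by
  have h40 : (4 : K) ≠ 0 := by
    have : (4 : K) = 2 * 2 := by norm_num
    rw [this]; exact mul_ne_zero h20 h20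
  have hb4 : W.b₄ = 2 * (r₁ * r₂ + r₁ * r₃ + r₂ * r₃) :=
    mul_left_cancel₀ h20 (by linear_combination hr.b₄)
  have hb8 : W.b₈ = 4 * ((r₁ + r₂ + r₃) * (r₁ * r₂ * r₃)) - (r₁ * r₂ + r₁ * r₃ + r₂ * r₃) ^ 2 := by
    apply mul_left_cancel₀ h40
    rw [W.b_relation, hr.b₂, hb4, hr.b₆]
    ring
  rw [WeierstrassCurve.Δ, hb8, hr.b₂, hb4, hr.b₆]
  ring

/-- `c₄ = 8 ∑ (rᵢ - rⱼ)²`. -/
theorem Roots.c₄_eq_h109 (h20 : (2 : K) ≠ 0) {r₁ r₂ r₃ : K} (hr : Roots W r₁ r₂ r₃) :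
    W.c₄ = 8 * ((r₁ - r₂) ^ 2 + (r₁ - r₃) ^ 2 + (r₂ - r₃) ^ 2) := by
  have hb4 : W.b₄ = 2 * (r₁ * r₂ + r₁ * r₃ + r₂ * r₃) :=
    mul_left_cancel₀ h20 (by linear_combination hr.b₄)
  rw [WeierstrassCurve.c₄, hr.b₂, hb4]
  ring

/-- Core: if the first two roots are congruent, they are the node roots. -/
theorem node_of_lt_h109 (hW : IntegralCoeffs W v) (h2 : v (2 : K) = 1)
    (hΔ0 : W.Δ ≠ 0) (hc₄ : v W.c₄ = 1)
    {r₁ r₂ r₃ : K} (hr : Roots W r₁ r₂ r₃) (h12 : v (r₁ - r₂) < 1) :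
    ∃ e₁ α β : K, Roots W e₁ (e₁ + α) (e₁ + β) ∧ v e₁ ≤ 1 ∧ v α < 1 ∧ v β = 1 ∧ α ≠ 0 ∧
      v α ^ 2 = v W.Δ := by
  have h20 : (2 : K) ≠ 0 := by
    intro h0; rw [h0, _root_.map_zero] at h2; exact zero_ne_one h2
  have h4 := val_four (v := v) h2
  have h8 : v (8 : K) = 1 := by
    have : (8 : K) = 2 * 4 := by norm_num
    rw [this, map_mul, h2, h4, one_mul]
  have h16 : v (16 : K) = 1 := by
    have : (16 : K) = 4 * 4 := by norm_num
    rw [this, map_mul, h4, one_mul]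
  have hr₁ : v r₁ ≤ 1 := Roots.val_le_one₃_h109 hW h2 hr.swap₁₃
  have hr₂ : v r₂ ≤ 1 := Roots.val_le_one₃_h109 hW h2 (Roots.swap₂₃_h109 hr)
  have hr₃ : v r₃ ≤ 1 := Roots.val_le_one₃_h109 hW h2 hr
  have h13le : v (r₁ - r₃) ≤ 1 := val_sub_le_one hr₁ hr₃
  have h23le : v (r₂ - r₃) ≤ 1 := val_sub_le_one hr₂ hr₃
  have hsmall : ∀ {a b c : K}, v a < 1 → v b < 1 → v c < 1 →
      v (8 * (a ^ 2 + b ^ 2 + c ^ 2)) < 1 := by
    intro a b c ha hb hc
    rw [map_mul, h8, one_mul]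
    have hsq : ∀ {z : K}, v z < 1 → v (z ^ 2) < 1 := fun hz => by
      rw [map_pow]; exact pow_lt_one₀ zero_le hz (by norm_num)
    exact lt_of_le_of_lt (v.map_add _ _)
      (max_lt (lt_of_le_of_lt (v.map_add _ _) (max_lt (hsq ha) (hsq hb))) (hsq hc))
  have h13 : v (r₁ - r₃) = 1 := by
    refine le_antisymm h13le (not_lt.mp fun hlt => ?_)
    have h23 : v (r₂ - r₃) < 1 := by
      have : r₂ - r₃ = (r₁ - r₃) - (r₁ - r₂) := by ring
      rw [this]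
      exact lt_of_le_of_lt (v.map_sub _ _) (max_lt hlt h12)
    have := hsmall h12 hlt h23
    rw [← Roots.c₄_eq_h109 h20 hr, hc₄] at this
    exact lt_irrefl _ this
  have h23 : v (r₂ - r₃) = 1 := by
    refine le_antisymm h23le (not_lt.mp fun hlt => ?_)
    have h13' : v (r₁ - r₃) < 1 := by
      have : r₁ - r₃ = (r₂ - r₃) + (r₁ - r₂) := by ring
      rw [this]
      exact lt_of_le_of_lt (v.map_add _ _) (max_lt hlt h12)
    rw [h13] at h13'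
    exact lt_irrefl _ h13'
  have hΔ := Roots.Δ_eq_h109 h20 hr
  refine ⟨r₁, r₂ - r₁, r₃ - r₁, ?_, hr₁, ?_, ?_, ?_, ?_⟩
  · have e1 : r₁ + (r₂ - r₁) = r₂ := by ring
    have e2 : r₁ + (r₃ - r₁) = r₃ := by ring
    rw [e1, e2]
    exact hr
  · rw [← Valuation.map_neg, neg_sub]; exact h12
  · rw [← Valuation.map_neg, neg_sub]; exact h13
  · intro h0
    apply hΔ0
    have : r₁ - r₂ = 0 := by linear_combination -h0
    rw [hΔ, this]
    ring
  · rw [hΔ, map_mul, map_mul, map_mul, h16, map_pow, map_pow, map_pow, h13, h23, one_mul,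
      one_pow, mul_one, mul_one, ← Valuation.map_neg, neg_sub]

/-- **The node roots** at a prime of multiplicative reduction. -/
theorem exists_node_roots_h109 [IsAlgClosed K] (hW : IntegralCoeffs W v) (h2 : v (2 : K) = 1)
    (hΔ0 : W.Δ ≠ 0) (hΔ : v W.Δ < 1) (hc₄ : v W.c₄ = 1) :
    ∃ e₁ α β : K, Roots W e₁ (e₁ + α) (e₁ + β) ∧ v e₁ ≤ 1 ∧ v α < 1 ∧ v β = 1 ∧ α ≠ 0 ∧
      v α ^ 2 = v W.Δ := by
  have h20 : (2 : K) ≠ 0 := by
    intro h0; rw [h0, _root_.map_zero] at h2; exact zero_ne_one h2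
  have h4 := val_four (v := v) h2
  have h16 : v (16 : K) = 1 := by
    have : (16 : K) = 4 * 4 := by norm_num
    rw [this, map_mul, h4, one_mul]
  obtain ⟨r₁, r₂, r₃, hr⟩ := exists_roots_h109 h20 W
  have hr₁ : v r₁ ≤ 1 := Roots.val_le_one₃_h109 hW h2 hr.swap₁₃
  have hr₂ : v r₂ ≤ 1 := Roots.val_le_one₃_h109 hW h2 (Roots.swap₂₃_h109 hr)
  have hr₃ : v r₃ ≤ 1 := Roots.val_le_one₃_h109 hW h2 hr
  by_cases h12 : v (r₁ - r₂) < 1
  · exact node_of_lt_h109 hW h2 hΔ0 hc₄ hr h12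
  by_cases h13 : v (r₁ - r₃) < 1
  · exact node_of_lt_h109 hW h2 hΔ0 hc₄ (Roots.swap₂₃_h109 hr) h13
  by_cases h23 : v (r₂ - r₃) < 1
  · exact node_of_lt_h109 hW h2 hΔ0 hc₄ (Roots.rot_h109 hr) h23
  exfalso
  have e12 : v (r₁ - r₂) = 1 := le_antisymm (val_sub_le_one hr₁ hr₂) (not_lt.mp h12)
  have e13 : v (r₁ - r₃) = 1 := le_antisymm (val_sub_le_one hr₁ hr₃) (not_lt.mp h13)
  have e23 : v (r₂ - r₃) = 1 := le_antisymm (val_sub_le_one hr₂ hr₃) (not_lt.mp h23)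
  rw [Roots.Δ_eq_h109 h20 hr, map_mul, map_mul, map_mul, h16, map_pow, map_pow, map_pow, e12, e13,
    e23] at hΔ
  simp at hΔ

end val

end Fermat.Agent.Ribet.H109.Peu
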