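import Fermat.Agent.Ribet.H109.ElocPeuW
import Fermat.Agent.Ribet.H944.WallSpec5
import Fermat.Agent.Ribet.H104.WForms
import Fermat.Agent.Ribet.H584.Places

/-!
# Row 38, the S39 line (W-form, peu ramifiée): wall and top glue  (helper109)

Frozen S39 is an input of S59 (`S59.H934.levelOpt_of`).  Its chain is the chain of S40
(`H944.Wall.S40_of_wall`, `H375.wallGood_of_atPFiltration`) with "good reduction at `p`" replaced
by "semistable at `p` and `p ∣ v_p(Δ)`"; the only new input is ELOC-ord for multiplicative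
reduction, `Peu.elocOrdPeu` (`ElocPeuW.lean`).

* `WallPeuStatement` : the wall for S39, conclusion `Lowered`.
* `wallPeuAt_of_filtrationFor` : pointwise, from the filtration package at ONE `(p, M')`.
* `wallPeu_of_atPFiltration : AtPFiltrationStatement → WallPeuStatement`.
* `S39At p M'` : frozen S39 at the level `p * M'`;  `s39At_of_wallAt`, `S39_of_forall_at`.
* `S39_of_wall : EmbedW → WallPeu → R3S → R3'-W → S39Statement`.

NOTE: S39 (and S40) need the wall at ALL odd `p`, in particular `p = 3`; the S44 line of the row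
needs `p ≥ 5` only.  The pointwise forms allow to feed the levels one by one.
-/

set_option autoImplicit false
set_option linter.style.haveILetI false

open WeierstrassCurve WeierstrassCurve.Affine WeierstrassCurve.Affine.Point
open CuspForm ModularFormClass UpperHalfPlane ModularCurve

namespace Fermat.Agent.Ribet.H109.Peu

open Fermat.Agent.Ribet.Spec Fermat.Agent.Ribet.H944.Wall

/-- The wall for S39 at one level `(p, M')`. -/
def WallPeuAt (p M' : ℕ) [NeZero M'] [NeZero (p * M')] : Prop :=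
  ∀ (W : WeierstrassCurve ℤ), W.Δ ≠ 0 →
    ((p : ℤ) ∣ W.Δ → ¬ (p : ℤ) ∣ W.c₄) →
    (W.map (Int.castRingHom ℚ)).IsPeuRamifieeAt p p → W.ModRepIsIrreducible p →
    ∀ S : Finset ℕ, EEmbedsIn (W.map (Int.castRingHom ℚ)) p (p * M') S (fun ℓ => W.apOfModel ℓ) →
      Lowered M' p S (fun ℓ => W.apOfModel ℓ)

/-- The wall for S39 (semistable at `p`, `p ∣ v_p(Δ)`), conclusion `Lowered`. -/
def WallPeuStatement : Prop :=
  ∀ (p M' : ℕ) [NeZero M'] [NeZero (p * M')], p.Prime → p ≠ 2 → ¬ p ∣ M' → WallPeuAt p M'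

/-- **The S39 wall at `(p, M')` from the filtration package at `(p, M')`.** -/
theorem wallPeuAt_of_filtrationFor {p M' : ℕ} [NeZero M'] [NeZero (p * M')] (hp : p.Prime)
    (hp2 : p ≠ 2) (hF : AtPFiltrationFor p M') : WallPeuAt p M' := by
  intro W hΔ hsemi hfin hirr S hemb
  obtain ⟨A, hA, -⟩ := Fermat.Agent.Ribet.H584.places p hp
  exact lowered_of_filtrationFor hF hA
    (fun hH => elocOrdPeu W p hΔ hp hp2 hsemi hfin hirr A hA hH)
    (Fermat.Agent.Ribet.H104.notMultTypeW W p hΔ hp hp2 hirr A hA)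
    (Fermat.Agent.Ribet.H104.nonEisW W p hΔ hp hp2 hirr) hemb

/-- **The S39 wall from the filtration package alone.** -/
theorem wallPeu_of_atPFiltration (hF : AtPFiltrationStatement) : WallPeuStatement :=
  fun p M' _ _ hp hp2 hpM' => wallPeuAt_of_filtrationFor hp hp2 (hF p M' hp hp2 hpM')

/-- Frozen S39 at the level `p * M'`. -/
def S39At (p M' : ℕ) : Prop :=
  ∀ (W : WeierstrassCurve ℤ), W.Δ ≠ 0 →
    ((p : ℤ) ∣ W.Δ → ¬ (p : ℤ) ∣ W.c₄) → W.ModRepIsIrreducible p →
    (W.map (Int.castRingHom ℚ)).IsPeuRamifieeAt p p →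
    W.IsResiduallyModularOfLevel p (p * M') → W.IsResiduallyModularOfLevel p M'

/-- **S39 at `(p, M')` from the wall at `(p, M')`**: `BLR-W + WALL + R3S + R3'-W`. -/
theorem s39At_of_wallAt (hE : EmbedWStatement) (hR3 : EigenformOfOccursAwayStatement)
    (hR3' : AlmostAllToWitnessWStatement) {p M' : ℕ} [NeZero M'] [NeZero (p * M')]
    (hp : p.Prime) (hp2 : p ≠ 2) (hWall : WallPeuAt p M') : S39At p M' := by
  intro W hΔ hsemi hirr hfin hmod
  obtain ⟨f, 𝔪, hwit⟩ := hmod
  obtain ⟨S, hemb⟩ := hE W p (p * M') hΔ hp hp2 hirr f 𝔪 hwit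
  obtain ⟨S', g, 𝔪', hg, hmax, hpm, hc⟩ :=
    eigenAway_of_lowered hR3 hp (hWall W hΔ hsemi hfin hirr S hemb)
  exact ⟨g, 𝔪', hR3' W p M' hΔ hp hp2 (Nat.pos_of_ne_zero (NeZero.ne M')) hirr g 𝔪' _ hg hmax
    hpm hc⟩

/-- Frozen S39 from its levels. -/
theorem S39_of_forall_at
    (h : ∀ (p M' : ℕ), p.Prime → p ≠ 2 → 0 < M' → ¬ p ∣ M' → S39At p M') : S39Statement := by
  intro W hΔ p hp hp2 hsemi hirr hfin M hM hpM hp2M hmod
  obtain ⟨M', rfl⟩ := hpM
  have hM'pos : 0 < M' := by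
    rcases Nat.eq_zero_or_pos M' with h0 | h0
    · subst h0; simp at hM
    · exact h0
  rw [Nat.mul_div_cancel_left M' hp.pos]
  have hpM' : ¬ p ∣ M' := by
    rintro ⟨k, rfl⟩
    exact hp2M ⟨k, by ring⟩
  exact h p M' hp hp2 hM'pos hpM' W hΔ hsemi hirr hfin hmod

/-- **S39 from the wall in `Lowered` form**: `BLR-W + WALL + R3S + R3'-W ⇒ S39`. -/
theorem S39_of_wall (hE : EmbedWStatement) (hWall : WallPeuStatement)
    (hR3 : EigenformOfOccursAwayStatement) (hR3' : AlmostAllToWitnessWStatement) :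
    S39Statement :=
  S39_of_forall_at fun p M' hp hp2 hM' hpM' =>
    haveI : NeZero M' := ⟨hM'.ne'⟩
    haveI : NeZero (p * M') := ⟨(Nat.mul_pos hp.pos hM').ne'⟩
    s39At_of_wallAt hE hR3 hR3' hp hp2 (hWall p M' hp hp2 hpM')

end Fermat.Agent.Ribet.H109.Peu
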