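import Fermat.Agent.Ribet.H109.S39Chain
import Fermat.Agent.Ribet.H943.Final

/-!
# Row 38, the S39 line: frozen S39 from the WALL-p leaves ALONE  (helper109)

The S39 companion of `H943/Final.lean` (which does S44 and S40).  Every input of
`Peu.S39_of_wall` except the wall at `p` is closed from landed, unconditional pieces
(`H823.embedW`, `H404.eigenformOfOccursAway`, `H943.Final.almostAllToWitnessW`), and the wall for
S39 follows from the at-`p` filtration package by `Peu.wallPeu_of_atPFiltration`
(ELOC-ord for multiplicative reduction with `p ∣ v_p(Δ)` is `Peu.elocOrdPeu`, unconditional).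

* `S39_of_wallPeu     : WallPeuStatement       → S39Statement`
* `S39_of_filtration  : AtPFiltrationStatement → S39Statement`
* `S39_of_targets     : WallTargetsStatement   → S39Statement`
* pointwise: `s39At_of_filtrationFor`, `s39At_of_targetsFor` (ONE level `(p, M')`),
* `S39Ge5Statement`, `S39Ge5_of_filtration5`, `S39Ge5_of_targets5`, `S39Ge5_of_leaves` :
  frozen S39 restricted to `p ≥ 5`, from EXACTLY the inputs of `H943.Final.S44_of_leaves`.
-/

set_option autoImplicit false
set_option linter.style.haveILetI false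

open WeierstrassCurve WeierstrassCurve.Affine WeierstrassCurve.Affine.Point
open CuspForm ModularFormClass UpperHalfPlane ModularCurve

namespace Fermat.Agent.Ribet.H109.Peu

open Fermat.Agent.Ribet Fermat.Agent.Ribet.Spec Fermat.Agent.Ribet.H944.Wall

/-- **S39 from the wall at `p` (peu ramifiée form) alone.** -/
theorem S39_of_wallPeu (hWall : WallPeuStatement) : S39Statement :=
  S39_of_wall H823.embedW hWall H404.eigenformOfOccursAway H943.Final.almostAllToWitnessW

/-- **S39 from the at-`p` filtration package (all odd `p`) alone.** -/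
theorem S39_of_filtration (hF : AtPFiltrationStatement) : S39Statement :=
  S39_of_wallPeu (wallPeu_of_atPFiltration hF)

/-- **S39 from the four targets (all odd `p`).** -/
theorem S39_of_targets (hT : WallTargetsStatement) : S39Statement :=
  S39_of_filtration (atPFiltration_of_targets hT)

/-- **S39 at ONE level `(p, M')` from the filtration package at `(p, M')`.** -/
theorem s39At_of_filtrationFor {p M' : ℕ} [NeZero M'] [NeZero (p * M')] (hp : p.Prime)
    (hp2 : p ≠ 2) (hF : AtPFiltrationFor p M') : S39At p M' :=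
  s39At_of_wallAt H823.embedW H404.eigenformOfOccursAway H943.Final.almostAllToWitnessW hp hp2
    (wallPeuAt_of_filtrationFor hp hp2 hF)

/-- **S39 at ONE level `(p, M')` from the four targets at `(p, M')`.** -/
theorem s39At_of_targetsFor {p M' : ℕ} [NeZero M'] [NeZero p] [NeZero (p * M')] (hp : p.Prime)
    (hp2 : p ≠ 2)
    (h : ∀ A : ValuationSubring (AlgebraicClosure ℚ), A.LiesOverPrime p →
      ∃ 𝓕 𝒮 : AddSubgroup (JZero (p * M')),
        S1For p M' A 𝒮 ∧ S2For p M' A 𝒮 ∧ S3For p M' 𝓕 𝒮 ∧ S4For p M' A 𝓕) :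
    S39At p M' :=
  s39At_of_filtrationFor hp hp2 (atPFiltrationFor_of p M' hp h)

/-- Frozen S39 restricted to `p ≥ 5`. -/
def S39Ge5Statement : Prop :=
  ∀ (W : WeierstrassCurve ℤ), W.Δ ≠ 0 → ∀ {p : ℕ}, p.Prime → 5 ≤ p →
    ((p : ℤ) ∣ W.Δ → ¬ (p : ℤ) ∣ W.c₄) → W.ModRepIsIrreducible p →
    (W.map (Int.castRingHom ℚ)).IsPeuRamifieeAt p p →
    ∀ {M : ℕ}, 0 < M → p ∣ M → ¬ p ^ 2 ∣ M → W.IsResiduallyModularOfLevel p M →
    W.IsResiduallyModularOfLevel p (M / p)

/-- S39 for `p ≥ 5` from its levels. -/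
theorem S39Ge5_of_forall_at
    (h : ∀ (p M' : ℕ), p.Prime → 5 ≤ p → 0 < M' → ¬ p ∣ M' → S39At p M') : S39Ge5Statement := by
  intro W hΔ p hp hp5 hsemi hirr hfin M hM hpM hp2M hmod
  obtain ⟨M', rfl⟩ := hpM
  have hM'pos : 0 < M' := by
    rcases Nat.eq_zero_or_pos M' with h0 | h0
    · subst h0; simp at hM
    · exact h0
  rw [Nat.mul_div_cancel_left M' hp.pos]
  have hpM' : ¬ p ∣ M' := by
    rintro ⟨k, rfl⟩
    exact hp2M ⟨k, by ring⟩
  exact h p M' hp hp5 hM'pos hpM' W hΔ hsemi hirr hfin hmod

/-- **S39 for `p ≥ 5` from the at-`p` filtration package (`p ≥ 5`) alone.** -/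
theorem S39Ge5_of_filtration5 (hF : AtPFiltration5Statement) : S39Ge5Statement :=
  S39Ge5_of_forall_at fun p M' hp hp5 hM' hpM' =>
    haveI : NeZero M' := ⟨hM'.ne'⟩
    haveI : NeZero (p * M') := ⟨(Nat.mul_pos hp.pos hM').ne'⟩
    s39At_of_filtrationFor hp (by omega) (hF p M' hp hp5 hpM')

/-- **S39 for `p ≥ 5` from the four targets (`p ≥ 5`).** -/
theorem S39Ge5_of_targets5 (hT : WallTargets5Statement) : S39Ge5Statement :=
  S39Ge5_of_filtration5 (atPFiltration5_of_targets hT)

/-- **S39 for `p ≥ 5` from the five open leaves of `H884/SlopeSpec.lean`** — exactly the inputs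
of `H943.Final.S44_of_leaves`. -/
theorem S39Ge5_of_leaves (h2 : H884.S2Statement) (hR : H884.ResFieldStatement)
    (hD : H884.DlogOutStatement) (h3 : H764.I3.R3PStatement) (hE : H884.EisSlopeStatement) :
    S39Ge5Statement :=
  S39Ge5_of_targets5 (H884.wallTargets5_of H884.s1 h2 hR hD h3 hE)

end Fermat.Agent.Ribet.H109.Peu
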