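import Fermat.Agent.Ribet.H109.S39Final
import Fermat.Agent.Ribet.H943.Final2
import Fermat.Agent.Ribet.H583.S40OfS39

/-!
# Row 38, the S39 line for `p ≥ 5`: the SAME frontier as S44  (helper109)

`H943.Final2.S44_of_open : S2Statement5 → EisSlopeStatement → S44Statement` is the final term of
S44.  The same two inputs give frozen S39 restricted to `p ≥ 5`:

    S39Ge5_of_open : S2Statement5 → EisSlopeStatement → S39Ge5Statement

(and `S40Ge5_of_open` for frozen S40 restricted to `p ≥ 5`).  So the day S44 closes, S39 and S40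
are closed for `p ≥ 5`; the only part of frozen S39 / S40 left is `p = 3`.
-/

set_option autoImplicit false
set_option linter.style.haveILetI false

open WeierstrassCurve WeierstrassCurve.Affine WeierstrassCurve.Affine.Point
open CuspForm ModularFormClass UpperHalfPlane ModularCurve

namespace Fermat.Agent.Ribet.H109.Peu

open Fermat.Agent.Ribet Fermat.Agent.Ribet.Spec Fermat.Agent.Ribet.H944.Wall
open Fermat.Agent.Ribet.H884

/-- **S39 for `p ≥ 5` from (S2) for `p ≥ 5` and EIS** — the two inputs of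
`H943.Final2.S44_of_open`. -/
theorem S39Ge5_of_open (h2 : H943.Final2.S2Statement5) (hE : EisSlopeStatement) :
    S39Ge5Statement :=
  S39Ge5_of_targets5
    (H943.Final2.wallTargets5_of_open h2 (H943.Final2.s4Statement5_of_eis hE))

/-- Frozen S40 restricted to `p ≥ 5`. -/
def S40Ge5Statement : Prop :=
  ∀ (W : WeierstrassCurve ℤ), W.Δ ≠ 0 → ∀ {p : ℕ}, p.Prime → 5 ≤ p →
    W.IsGoodPrimeFor p → W.ModRepIsIrreducible p →
    ∀ {M : ℕ}, 0 < M → p ∣ M → ¬ p ^ 2 ∣ M → W.IsResiduallyModularOfLevel p M →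
    W.IsResiduallyModularOfLevel p (M / p)

/-- S40 for `p ≥ 5` is a special case of S39 for `p ≥ 5`: good reduction at `p` makes the
semistability hypothesis vacuous and `v_p(Δ) = 0`. -/
theorem S40Ge5_of_S39Ge5 (h : S39Ge5Statement) : S40Ge5Statement := by
  intro W hΔ p hp hp5 hgood hirr M hM hpM hp2M hmod
  exact h W hΔ hp hp5 (fun hd => absurd hd hgood) hirr
    (Fermat.Agent.Ribet.H583.isPeuRamifieeAt_of_isGoodPrimeFor W hp hgood) hM hpM hp2M hmod

/-- **S40 for `p ≥ 5` from (S2) for `p ≥ 5` and EIS.** -/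
theorem S40Ge5_of_open (h2 : H943.Final2.S2Statement5) (hE : EisSlopeStatement) :
    S40Ge5Statement :=
  S40Ge5_of_S39Ge5 (S39Ge5_of_open h2 hE)

end Fermat.Agent.Ribet.H109.Peu
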