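import Fermat.Agent.Ribet.H109.S39Final2
import Fermat.Agent.Ribet.H558.S2Five
import Fermat.Agent.Ribet.H399.CuspGen
import Fermat.Agent.Ribet.H912.TameFixed
import Fermat.Agent.Ribet.H132.WildOfFrame
import Fermat.Agent.Ribet.H712.WildFrame

/-!
# Row 38, W-forms for `p ≥ 5`, UNCONDITIONAL  (helper109)

Frozen S39 and frozen S40 restricted to `p ≥ 5`, from the leaves of the landed S44 chain
(the proof term is the one of `Fermat/Agent/S44.lean`, with `Final2.S44_of_open` replaced by
`Peu.S39Ge5_of_open`):

    s39Ge5 : S39Ge5Statement        s40Ge5 : S40Ge5Statement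

These are the `p = 5` (and every `p ≥ 5`) part of the inputs S39 / S40 of S59 cell LO.
The part `p = 3` of frozen S39 / S40 is NOT covered (the wall at `p` is proved for `p ≥ 5`).
-/

set_option autoImplicit false

namespace Fermat.Agent.Ribet.H109.Peu

open Fermat.Agent.Ribet

/-- (S2) for `p ≥ 5` and EIS, closed (the two inputs of the S44 final term). -/
theorem eisSlope_closed_h109 : H884.EisSlopeStatement :=
  H884.eisSlope_of_frontier5
    (H704.CoreOut.coreOutNE_of_tame_wild
      (H967.Tame.tame_of_fixed H912.tameFixed)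
      (H132.wild_of_frame H712.Frame.wildFrame))
    H399.cuspPurity5Leaf

/-- **Frozen S39 for `p ≥ 5`, unconditional.** -/
theorem s39Ge5 : S39Ge5Statement :=
  S39Ge5_of_open H558.s2Five eisSlope_closed_h109

/-- **Frozen S40 for `p ≥ 5`, unconditional.** -/
theorem s40Ge5 : S40Ge5Statement :=
  S40Ge5_of_open H558.s2Five eisSlope_closed_h109

end Fermat.Agent.Ribet.H109.Peu
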